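/-
Project DS (S48), top assembly (helper3): from a residue map `φ : ℤ̄ → k` (`ℤ̄ ⊆ ℂ`, `k` a field of
characteristic `ℓ`) to a place of `Q̄` above `ℓ`.

`dstp_place`: there is a valuation subring `A` of `Q̄` above `ℓ` and a field homomorphism
`θ : k_A → k` such that `θ (x mod 𝔪_A) = φ (ι x)` for every `x ∈ A` whose image `ι x ∈ ℂ` is an
algebraic integer.  (`𝔭 := ker (φ ∘ ι)` is a maximal ideal of `ℤ̄ ⊆ Q̄`; `A` dominates the
localisation at `𝔭`; every residue class of `A` is represented by `0` or a root of unity, so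
`ℤ̄ → k_A` is onto with kernel `𝔭`.)  Prefix `dstp_`.
-/
import Mathlib
import Fermat.Agent.DS.Seams
import Fermat.Agent.JT3.PlaceMap.BaseField

set_option autoImplicit false

noncomputable section

namespace Fermat.Agent.DS

open IsLocalRing

/-- every residue class of a valuation subring of `Q̄` above `ℓ` is the class of an algebraic
integer (`0` or a root of unity of order prime to `ℓ`). -/
theorem dstp_residue_repr (A : ValuationSubring ds_Qb) (ℓ : ℕ) [hℓ : Fact ℓ.Prime]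
    (hA : A.LiesOverPrime ℓ) (hint : ∀ x : ds_Qb, IsIntegral ℤ x → x ∈ A) (a : A) :
    ∃ (o : ds_Qb) (h : o ∈ A), IsIntegral ℤ o ∧ residue A ⟨o, h⟩ = residue A a := by
  classical
  by_cases ha : residue A a = 0
  · refine ⟨0, A.zero_mem, isIntegral_zero, ?_⟩
    rw [ha]
    exact map_zero (residue A)
  obtain ⟨m, hm, hpow⟩ := JT3.ebf_residue_pow_eq_one A ℓ hA a ha
  have hm0 : m ≠ 0 := fun h => hm (h ▸ dvd_zero ℓ)
  have hmpos : 0 < m := Nat.pos_of_ne_zero hm0
  have _ : NeZero m := ⟨hm0⟩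
  have _ : NeZero ((m : ℕ) : ℚ) := ⟨by exact_mod_cast hm0⟩
  obtain ⟨ζ, hζ⟩ := HasEnoughRootsOfUnity.exists_primitiveRoot ds_Qb m
  have hprod := Polynomial.X_pow_sub_one_eq_prod hmpos hζ
  have heval : (a : ds_Qb) ^ m - 1 =
      ∏ ξ ∈ Polynomial.nthRootsFinset m (1 : ds_Qb), ((a : ds_Qb) - ξ) := by
    have := congrArg (Polynomial.eval (a : ds_Qb)) hprod
    simpa [Polynomial.eval_prod] using this
  have hroot1 : ∀ ξ ∈ Polynomial.nthRootsFinset m (1 : ds_Qb), ξ ^ m = 1 := fun ξ hξ =>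
    (Polynomial.mem_nthRootsFinset hmpos 1).mp hξ
  have hintξ : ∀ ξ ∈ Polynomial.nthRootsFinset m (1 : ds_Qb), IsIntegral ℤ ξ := by
    intro ξ hξ
    refine ⟨Polynomial.X ^ m - Polynomial.C 1, Polynomial.monic_X_pow_sub_C 1 hm0, ?_⟩
    simp [hroot1 ξ hξ]
  have hmemA : ∀ ξ ∈ Polynomial.nthRootsFinset m (1 : ds_Qb), ξ ∈ A := fun ξ hξ =>
    hint ξ (hintξ ξ hξ)
  have h𝔪 : (a ^ m - 1 : A) ∈ maximalIdeal A := by
    rw [← residue_eq_zero_iff, map_sub, map_pow, hpow, map_one, sub_self]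
  have hprodA : (a ^ m - 1 : A) =
      ∏ ξ ∈ (Polynomial.nthRootsFinset m (1 : ds_Qb)).attach, (a - ⟨ξ.1, hmemA ξ.1 ξ.2⟩) := by
    apply Subtype.ext
    have h1 : ((a ^ m - 1 : A) : ds_Qb) = (a : ds_Qb) ^ m - 1 := by push_cast; rfl
    rw [h1, heval, ← Finset.prod_attach]
    have h2 : ((∏ ξ ∈ (Polynomial.nthRootsFinset m (1 : ds_Qb)).attach,
        (a - ⟨ξ.1, hmemA ξ.1 ξ.2⟩) : A) : ds_Qb) =
        ∏ ξ ∈ (Polynomial.nthRootsFinset m (1 : ds_Qb)).attach, ((a : ds_Qb) - ξ.1) := by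
      rw [← A.subtype_apply, map_prod]
      rfl
    rw [h2]
  rw [hprodA, Ideal.IsPrime.prod_mem_iff] at h𝔪
  obtain ⟨ξ, -, hξ⟩ := h𝔪
  refine ⟨ξ.1, hmemA ξ.1 ξ.2, hintξ ξ.1 ξ.2, ?_⟩
  have := (residue_eq_zero_iff _).mpr hξ
  rw [map_sub, sub_eq_zero] at this
  exact this.symm

/-- **the place of `Q̄` defined by a residue map `φ : ℤ̄ → k`.** -/
theorem dstp_place (ℓ : ℕ) [hℓ : Fact ℓ.Prime] (k : Type) [Field k] [CharP k ℓ]
    (φ : ds_Zb →+* k) :
    ∃ (A : ValuationSubring ds_Qb) (θ : ResidueField A →+* k), A.LiesOverPrime ℓ ∧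
      ∀ (x : ds_Qb) (hx : x ∈ A) (z : ds_Zb), ds_iota x = (z : ℂ) →
        θ (residue A ⟨x, hx⟩) = φ z := by
  classical
  set O : Subring ds_Qb := (integralClosure ℤ ds_Qb).toSubring with hO
  have hOmem : ∀ x : ds_Qb, x ∈ O ↔ IsIntegral ℤ x := fun x => Iff.rfl
  let j : O →+* ds_Zb := (ds_iota : ds_Qb →+* ℂ).restrict O (integralClosure ℤ ℂ)
    (fun x hx => map_isIntegral_int (ds_iota : ds_Qb →+* ℂ) hx)
  have hj : ∀ x : O, ((j x : ds_Zb) : ℂ) = ds_iota (x : ds_Qb) := fun x => rfl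
  let φ' : O →+* k := φ.comp j
  have hI : RingHom.ker φ' ≠ ⊤ := RingHom.ker_ne_top φ'
  obtain ⟨B, hle, hsub⟩ := Ideal.image_subset_nonunits_valuationSubring (RingHom.ker φ') hI
  have hintB : ∀ x : ds_Qb, IsIntegral ℤ x → x ∈ B := fun x hx => hle ((hOmem x).mpr hx)
  -- `B` lies over `ℓ`
  have hℓB : B.LiesOverPrime ℓ := by
    apply hsub
    refine ⟨((ℓ : ℕ) : O), ?_, by simp⟩
    rw [SetLike.mem_coe, RingHom.mem_ker, map_natCast]
    exact CharP.cast_eq_zero k ℓ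
  -- the inclusion `O → B` and the residue map on `O`
  let inc : O →+* B :=
    { toFun := fun x => ⟨x.1, hle x.2⟩
      map_one' := rfl
      map_mul' := fun _ _ => rfl
      map_zero' := rfl
      map_add' := fun _ _ => rfl }
  let r : O →+* ResidueField B := (residue B).comp inc
  have hr : ∀ (x : ds_Qb) (hx : IsIntegral ℤ x),
      r ⟨x, (hOmem x).mpr hx⟩ = residue B ⟨x, hintB x hx⟩ := fun x hx => rfl
  have hsurj : Function.Surjective r := by
    intro y
    obtain ⟨a, rfl⟩ := residue_surjective y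
    obtain ⟨o, ho, hoint, hoa⟩ := dstp_residue_repr B ℓ hℓB hintB a
    exact ⟨⟨o, (hOmem o).mpr hoint⟩, hoa⟩
  -- `ker φ'` is maximal
  have hprime : (RingHom.ker φ').IsPrime := RingHom.ker_isPrime φ'
  have hOint : Algebra.IsIntegral ℤ O :=
    ⟨fun x => (isIntegral_algHom_iff (O.subtype.toIntAlgHom) Subtype.val_injective).mp x.2⟩
  have hmax : (RingHom.ker φ').IsMaximal := by
    apply Ideal.isMaximal_of_isIntegral_of_isMaximal_comap (R := ℤ) (RingHom.ker φ')
    have hcomap : (RingHom.ker φ').comap (algebraMap ℤ O) = RingHom.ker (algebraMap ℤ k) := by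
      ext n
      simp only [Ideal.mem_comap, RingHom.mem_ker]
      rw [eq_intCast, eq_intCast, map_intCast]
    rw [hcomap, CharP.ker_intAlgebraMap_eq_span ℓ]
    exact PrincipalIdealRing.isMaximal_of_irreducible
      (Nat.prime_iff_prime_int.mp hℓ.out).irreducible
  -- `ker r = ker φ'`
  have hker_le : RingHom.ker φ' ≤ RingHom.ker r := by
    intro x hx
    rw [RingHom.mem_ker]
    have h1 : ((inc x : B) : ds_Qb) ∈ B.nonunits := hsub ⟨x, hx, rfl⟩
    have h2 : inc x ∈ maximalIdeal B := ValuationSubring.coe_mem_nonunits_iff.mp h1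
    exact (residue_eq_zero_iff _).mpr h2
  have hker : RingHom.ker φ' = RingHom.ker r := hmax.eq_of_le (RingHom.ker_ne_top r) hker_le
  -- the field homomorphism
  have hH : ∀ a ∈ RingHom.ker r, φ' a = 0 := fun x hx => by
    rw [← hker] at hx; exact hx
  let θ : ResidueField B →+* k :=
    (Ideal.Quotient.lift (RingHom.ker r) φ' hH).comp
      (RingHom.quotientKerEquivOfSurjective hsurj).symm.toRingHom
  refine ⟨B, θ, hℓB, ?_⟩
  intro x hx z hz
  have hxint : IsIntegral ℤ x := by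
    have h1 : IsIntegral ℤ (ds_iota x) := by rw [hz]; exact z.2
    exact (isIntegral_algHom_iff ((ds_iota : ds_Qb →+* ℂ).toIntAlgHom) ds_iota_injective).mp h1
  have h1 : residue B ⟨x, hx⟩ = r ⟨x, (hOmem x).mpr hxint⟩ := rfl
  rw [h1]
  show (Ideal.Quotient.lift (RingHom.ker r) φ' hH)
    ((RingHom.quotientKerEquivOfSurjective hsurj).symm (r ⟨x, (hOmem x).mpr hxint⟩)) = φ z
  rw [RingHom.quotientKerEquivOfSurjective_symm_apply, Ideal.Quotient.lift_mk]
  show φ (j ⟨x, (hOmem x).mpr hxint⟩) = φ z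
  congr 1
  exact Subtype.ext hz

end Fermat.Agent.DS
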