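/-
Project DS (S48), top assembly (helper3): the adapter
`ds_SeamW → ds_SeamTcoh → (full integrality of the a_p) → dsg_ModL`.

Given `φ : ℤ̄ → k`, `dstp_place` produces a place `A` of `Q̄` above `ℓ` with `θ : k_A → k`;
`ds_SeamW` gives the weight-two eigen-datum on `Γ₁(N ℓ)` congruent to `f` modulo `𝔪_A`; helper5's
`g1m_main` turns it into an eigenclass `c₀ ∈ Hom(Γ₁(N ℓ), k_A)`; push forward along `θ` and apply
`ds_SeamTcoh` over `k`.  Prefix `dstm_`.
-/
import Mathlib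
import Fermat.Agent.DS.Seams
import Fermat.Agent.DS.Group.Density
import Fermat.Agent.DS.Group.LiftPhi
import Fermat.Agent.DS.HeckeG1.MainW2
import Fermat.Agent.DS.Top.Place

set_option autoImplicit false

noncomputable section

open CongruenceSubgroup ModularFormClass IsLocalRing
open scoped MatrixGroups ModularForm

namespace Fermat.Agent.DS

/-- the values of a Dirichlet character are algebraic integers -/
theorem dstm_isIntegral_char {N : ℕ} [NeZero N] (ε : DirichletCharacter ℂ N) (a : ZMod N) :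
    IsIntegral ℤ (ε a) := by
  by_cases ha : IsUnit a
  · obtain ⟨u, rfl⟩ := ha
    have hn : 0 < orderOf u := orderOf_pos u
    have h1 : (ε (u : ZMod N)) ^ orderOf u = 1 := by
      rw [← map_pow, ← Units.val_pow_eq_pow_val, pow_orderOf_eq_one, Units.val_one, map_one]
    exact IsIntegral.of_pow hn (by rw [h1]; exact isIntegral_one)
  · rw [MulChar.map_nonunit ε ha]
    exact isIntegral_zero

/-- two elements of a valuation subring with difference in the nonunits have the same residue -/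
theorem dstm_residue_eq {K : Type*} [Field K] (A : ValuationSubring K) {x y : K} (hx : x ∈ A)
    (hy : y ∈ A) (h : x - y ∈ A.nonunits) : residue A ⟨x, hx⟩ = residue A ⟨y, hy⟩ := by
  rw [← sub_eq_zero, ← map_sub, residue_eq_zero_iff]
  exact ValuationSubring.coe_mem_nonunits_iff.mp h

/-- **the adapter**: the mod-`ℓ` representations attached to a weight-one eigenform, from the
weight shift `ds_SeamW` and the tower `ds_SeamTcoh`. -/
theorem dstm_modL (hW : ds_SeamW) (hT : ds_SeamTcoh) (N : ℕ) [NeZero N]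
    (ε : DirichletCharacter ℂ N) (f : CuspForm (Gamma1 N) 1) (hf : ds_W1 N ε f)
    (hint : ∀ p : ℕ, p.Prime → ¬ p ∣ N → IsIntegral ℤ (qCoeff f p)) :
    dsg_ModL N (fun p => qCoeff f p) (fun p => ε (p : ZMod N)) := by
  classical
  -- algebraic models of `a_p` and `ε(p)`
  have hα : ∀ p : ℕ, ∃ t : ds_Qb, IsIntegral ℤ t ∧ (p.Prime → ¬ p ∣ N → ds_iota t = qCoeff f p) := by
    intro p
    by_cases hp : p.Prime ∧ ¬ p ∣ N
    · obtain ⟨t, ht, hte⟩ := dsg_lw_exists_iota_eq (qCoeff f p) (hint p hp.1 hp.2)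
      exact ⟨t, ht, fun _ _ => hte⟩
    · exact ⟨0, isIntegral_zero, fun h1 h2 => absurd ⟨h1, h2⟩ hp⟩
  have he : ∀ p : ℕ, ∃ t : ds_Qb, IsIntegral ℤ t ∧ ds_iota t = ε (p : ZMod N) := fun p =>
    dsg_lw_exists_iota_eq _ (dstm_isIntegral_char ε _)
  choose α hαint hαι using hα
  choose e heint heι using he
  obtain ⟨ℓ₀, hℓ₀⟩ := hW N ε f hf α e (fun p hp hpN => ⟨hαι p hp hpN, heι p⟩) 1 one_pos
    (fun p _ _ ℓ _ _ A _ => dsg_lp_mem_of_isIntegral A (hαint p))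
  refine ⟨max ℓ₀ 5, ?_⟩
  intro ℓ hℓ hℓle k _ _ _ φ
  have hℓ₀le : ℓ₀ ≤ ℓ := le_trans (le_max_left _ _) hℓle
  have hℓ5 : 5 ≤ ℓ := le_trans (le_max_right _ _) hℓle
  obtain ⟨A, θ, hA, hθ⟩ := dstp_place ℓ k φ
  obtain ⟨M, hMne, ψ, g, b, β, cc, hM, hW2, hβc⟩ := hℓ₀ ℓ hℓ.out hℓ₀le A hA
  obtain ⟨c₀, χ, hc₀, hpar₀, hdiam₀, hT₀⟩ := g1m_main ψ g b hW2 β cc
    (fun p hp hpM => ⟨(hβc p hp hpM).1, (hβc p hp hpM).2.1⟩) A
  have hN0 : 0 < N := Nat.pos_of_ne_zero (NeZero.ne N)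
  have hM5 : 5 ≤ M := by
    rw [hM]
    calc 5 ≤ ℓ := hℓ5
      _ = 1 * ℓ := (one_mul ℓ).symm
      _ ≤ N * ℓ := Nat.mul_le_mul_right ℓ hN0
  have hℓ2 : ℓ ≠ 2 := by omega
  -- push forward along `θ`
  have hθinj : Function.Injective θ := θ.injective
  set c : Additive (Gamma1 M) →+ k := θ.toAddMonoidHom.comp c₀ with hc
  have hcne : c ≠ 0 := by
    intro h0
    apply hc₀
    refine AddMonoidHom.ext fun γ => hθinj ?_
    have h1 : θ (c₀ γ) = 0 := DFunLike.congr_fun h0 γ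
    rw [h1, AddMonoidHom.zero_apply, map_zero]
  have hcpar : ds_ParTriv c := by
    intro γ hγ
    have h1 : c₀ (Additive.ofMul γ) = 0 := hpar₀ γ (by rw [hγ]; norm_num)
    show θ (c₀ (Additive.ofMul γ)) = 0
    rw [h1, map_zero]
  set a : ℕ → k := fun p => if h : β p ∈ A then θ (residue A ⟨β p, h⟩) else 0 with ha
  set ψ' : (ZMod M)ˣ →* kˣ := (Units.map (θ : ResidueField A →* k)).comp χ with hψ'
  have hψ'coe : ∀ d : (ZMod M)ˣ, ((ψ' d : kˣ) : k) = θ ((χ d : (ResidueField A)ˣ) : ResidueField A) :=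
    fun d => rfl
  have hcT : ∀ (p : ℕ) [Fact p.Prime] (hpM : ¬ p ∣ M), g1t_Tadd hpM c = a p • c := by
    intro p _ hpM
    obtain ⟨hb, -, h1, -⟩ := hT₀ p hpM
    rw [hc, g1t_Tadd_comp, h1]
    refine AddMonoidHom.ext fun γ => ?_
    show θ (residue A ⟨β p, hb⟩ * c₀ γ) = a p * θ (c₀ γ)
    rw [map_mul, ha]
    simp only [dif_pos hb]
  have hcD : ∀ d : (ZMod M)ˣ, g1t_diamAdd d c = (ψ' d : k) • c := by
    intro d
    rw [hc, g1t_diamAdd_comp, hdiam₀ d]
    refine AddMonoidHom.ext fun γ => ?_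
    show θ (((χ d : (ResidueField A)ˣ) : ResidueField A) * c₀ γ) = (ψ' d : k) * θ (c₀ γ)
    rw [map_mul, hψ'coe]
  obtain ⟨ρ, hρfin, hρss, hρ⟩ := hT M hM5 ℓ hℓ2 k c hcne hcpar a ψ' hcT hcD
  refine ⟨ρ, hρfin, hρss, ?_⟩
  intro p hp hpNℓ x y hx hy
  have hpM : ¬ p ∣ M := by rw [hM]; exact hpNℓ
  have hpN : ¬ p ∣ N := fun h => hpNℓ (Dvd.dvd.mul_right h ℓ)
  have hpℓ : p ≠ ℓ := fun h => hpNℓ (h ▸ Dvd.intro_left N rfl)
  haveI : Fact p.Prime := ⟨hp⟩
  obtain ⟨hβι, hcι, hβA, hcA, hβα, hce⟩ := hβc p hp hpM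
  obtain ⟨hb, hcc, -, h2⟩ := hT₀ p hpM
  have hαA : α p ∈ A := dsg_lp_mem_of_isIntegral A (hαint p)
  have heA : e p ∈ A := dsg_lp_mem_of_isIntegral A (heint p)
  have h3 : a p = φ x := by
    rw [ha]
    simp only [dif_pos hb]
    rw [dstm_residue_eq A hb hαA hβα]
    exact hθ (α p) hαA x (by rw [hαι p hp hpN]; exact hx.symm)
  have h4 : ((ψ' (g1t_pU hpM) : kˣ) : k) * (p : k) = φ y := by
    rw [hψ'coe, ← map_natCast θ p, ← map_mul, ← h2, dstm_residue_eq A hcc heA hce]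
    exact hθ (e p) heA y (by rw [heι p]; exact hy.symm)
  have := hρ p hpM hpℓ
  rw [h3, h4] at this
  exact this

end Fermat.Agent.DS
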