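/-
Project DS (S48), top assembly (helper3): the frozen statement S48 from the two pieces that are not
yet on main -- `hMain` = the type of helper9's `dsg_main` (DS-G, `DS/Group/Main.lean`) and
`hTcoh : ds_SeamTcoh` (DS-T).  Everything else (DS-0, DS-A, DS-B, DS-C, DS-W, the adapter
`dstm_modL`) is consumed unconditionally.  `Fermat/Agent/S48.lean` is this term with
`hMain := dsg_main`, `hTcoh := dst_seamTcoh`.
-/
import Fermat.Statements.S48
import Fermat.Agent.DS.Cheb.Main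
import Fermat.Agent.DS.SeamsDone
import Fermat.Agent.DS.Conj.SeamQb
import Fermat.Agent.DS.Group.FewTraces
import Fermat.Agent.DS.Wt.Main
import Fermat.Agent.DS.Top.ModL
import Fermat.Agent.DS.Group.Main
import Fermat.Agent.DS.Tower.Main
import Fermat.Agent.DS.Tower.GoodFinal

set_option autoImplicit false
open CongruenceSubgroup
open scoped MatrixGroups
local notation "Γℚ" => (AlgebraicClosure ℚ ≃ₐ[ℚ] AlgebraicClosure ℚ)
open DeligneSerre
open Fermat.Agent.DS ModularFormClass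

namespace Fermat.Agent.DS

theorem dstop_S48_of
    (hMain : dsg_Chebotarev → ∀ (N : ℕ) [NeZero N] (ε : DirichletCharacter ℂ N) (f : CuspForm (Gamma1 N) 1)
      (_ : ∀ p : ℕ, p.Prime → ¬ p ∣ N → IsIntegral ℤ (qCoeff f p))
      (_ : ∃ C : ℝ, ∀ s : ℝ, 1 < s → s ≤ 2 → ∀ P : Finset ℕ, (∀ p ∈ P, p.Prime ∧ ¬ p ∣ N) →
        ∑ p ∈ P, ‖qCoeff f p‖ ^ 2 / (p : ℝ) ^ s ≤ Real.log (1 / (s - 1)) + C)
      (_ : dsg_FewTraces N (fun p => qCoeff f p))
      (_ : dsg_ModL N (fun p => qCoeff f p) (fun p => ε (p : ZMod N))), ds_Conclusion N ε f)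
    (hTcoh : ds_SeamTcoh)
    (N : ℕ) [NeZero N] (ε : DirichletCharacter ℂ N) (f : CuspForm (Gamma1 N) 1)
    (hf₁ : ModularFormClass.qCoeff f 1 = 1)
    (hT : ∀ p : ℕ, p.Prime → ¬ p ∣ N → ∀ n : ℕ,
        ModularFormClass.qCoeff f (p * n) +
            ε (p : ZMod N) * (if p ∣ n then ModularFormClass.qCoeff f (n / p) else 0) =
          ModularFormClass.qCoeff f p * ModularFormClass.qCoeff f n) :
    ∃ ρ : Γℚ →* GL (Fin 2) ℂ, GaloisFactorsThroughFiniteLevel ρ ∧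
      (Deformation.matrixRepresentation ρ).IsIrreducible ∧
      ∀ p : ℕ, p.Prime → ¬ p ∣ N →
        ∀ A : ValuationSubring (AlgebraicClosure ℚ), A.LiesOverPrime p →
          (∀ σ ∈ A.inertiaSubgroupIn ℚ, ρ σ = 1) ∧
          ∀ σ : Γℚ, A.IsFrobeniusAt σ p →
            ((ρ σ : GL (Fin 2) ℂ) : Matrix (Fin 2) (Fin 2) ℂ).trace = ModularFormClass.qCoeff f p ∧
            ((ρ σ : GL (Fin 2) ℂ) : Matrix (Fin 2) (Fin 2) ℂ).det = ε (p : ZMod N) := by
  have hf : ds_W1 N ε f := ⟨hf₁, hT⟩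
  have hint := dsb_seamB_integral N ε f hf
  exact hMain dsC_chebotarev N ε f hint (ds_seamAfin N ε f hf)
    (dsg_fewTraces_of_seamB dsb_seamBint N ε f hf)
    (dstm_modL dsW_main hTcoh N ε f hf hint)

/-- **S48 from `ds_SeamTcoh` alone** (`dsg_main` is on main). -/
theorem dstop_S48_of_Tcoh (hTcoh : ds_SeamTcoh)
    (N : ℕ) [NeZero N] (ε : DirichletCharacter ℂ N) (f : CuspForm (Gamma1 N) 1)
    (hf₁ : ModularFormClass.qCoeff f 1 = 1)
    (hT : ∀ p : ℕ, p.Prime → ¬ p ∣ N → ∀ n : ℕ,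
        ModularFormClass.qCoeff f (p * n) +
            ε (p : ZMod N) * (if p ∣ n then ModularFormClass.qCoeff f (n / p) else 0) =
          ModularFormClass.qCoeff f p * ModularFormClass.qCoeff f n) :
    ds_Conclusion N ε f :=
  dstop_S48_of (fun hC N _ ε f hint hA hFT hT => dsg_main hC N ε f hint hA hFT hT) hTcoh
    N ε f hf₁ hT

/-- **S48 from the two open inputs of DS-T**: the good-reduction seams `dst_Good` and the
Hecke-equivariant gateway `dst_Gate` at all `(M, ℓ)`, `5 ≤ M`, `ℓ ≠ 2`. -/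
theorem dstop_S48_of_good_gate
    (hGood : ∀ (M : ℕ) [NeZero M] (hM : M ≠ 1), 5 ≤ M → ∀ (ℓ : ℕ) [Fact ℓ.Prime], ℓ ≠ 2 →
      dst_Good M ℓ hM)
    (hGate : ∀ (M : ℕ) [NeZero M] (hM : M ≠ 1), 5 ≤ M → ∀ (ℓ : ℕ) [Fact ℓ.Prime], ℓ ≠ 2 →
      dst_Gate M ℓ hM)
    (N : ℕ) [NeZero N] (ε : DirichletCharacter ℂ N) (f : CuspForm (Gamma1 N) 1)
    (hf₁ : ModularFormClass.qCoeff f 1 = 1)
    (hT : ∀ p : ℕ, p.Prime → ¬ p ∣ N → ∀ n : ℕ,
        ModularFormClass.qCoeff f (p * n) +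
            ε (p : ZMod N) * (if p ∣ n then ModularFormClass.qCoeff f (n / p) else 0) =
          ModularFormClass.qCoeff f p * ModularFormClass.qCoeff f n) :
    ds_Conclusion N ε f :=
  dstop_S48_of_Tcoh (dst_seamTcoh_of_good_gate hGood hGate) N ε f hf₁ hT

/-- **S48 from the LAST open input of DS-T**: the Hecke-equivariant gateway `dst_Gate` at all
`(M, ℓ)`, `5 ≤ M`, `ℓ ≠ 2` (`dst_good` is unconditional). -/
theorem dstop_S48_of_gate
    (hGate : ∀ (M : ℕ) [NeZero M] (hM : M ≠ 1), 5 ≤ M → ∀ (ℓ : ℕ) [Fact ℓ.Prime], ℓ ≠ 2 →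
      dst_Gate M ℓ hM)
    (N : ℕ) [NeZero N] (ε : DirichletCharacter ℂ N) (f : CuspForm (Gamma1 N) 1)
    (hf₁ : ModularFormClass.qCoeff f 1 = 1)
    (hT : ∀ p : ℕ, p.Prime → ¬ p ∣ N → ∀ n : ℕ,
        ModularFormClass.qCoeff f (p * n) +
            ε (p : ZMod N) * (if p ∣ n then ModularFormClass.qCoeff f (n / p) else 0) =
          ModularFormClass.qCoeff f p * ModularFormClass.qCoeff f n) :
    ds_Conclusion N ε f :=
  dstop_S48_of_good_gate
    (fun M _ hM hM5 ℓ hℓ _ => dst_good (by omega) hM ℓ hℓ.out) hGate N ε f hf₁ hT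

end Fermat.Agent.DS
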