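/-
Project DS (S48), top assembly (helper3): the Hecke-equivariant gateway `dst_Gate` as a closed term,
from helper17's `g1x_equiv`, `g1x_equiv_hecke`, `g1x_equiv_diamond` (Gam1/GatewayHecke.lean) and
helper24's swap embedding `dsh_sw_swap_towerOne` (Hecke/SwapG1Diamond.lean); then
`dstg_seamTcoh : ds_SeamTcoh`.  Prefix `dstg_`.
-/
import Mathlib
import Fermat.Agent.DS.Gam1.GatewayHecke
import Fermat.Agent.DS.Hecke.SwapG1Diamond
import Fermat.Agent.DS.Tower.Main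
import Fermat.Agent.DS.Tower.GoodFinal

set_option autoImplicit false
set_option synthInstance.maxHeartbeats 400000
set_option maxHeartbeats 1000000

noncomputable section

namespace Fermat.Agent.DS

open ModularCurve AlgebraicCurve Fermat.Agent.JT3 CongruenceSubgroup
open Fermat.Agent.S24 Fermat.Agent.S24.Br

/-- **the Hecke-equivariant gateway `J₁(M)[ℓ] ≃+ Hom_par(Γ₁(M), 𝔽_ℓ)`**, unconditionally. -/
theorem dstg_gate {M : ℕ} [NeZero M] (hM : M ≠ 1) (hM5 : 5 ≤ M) (ℓ : ℕ) [hℓ : Fact ℓ.Prime] :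
    dst_Gate M ℓ hM := by
  haveI : NeZero ℓ := ⟨hℓ.out.ne_zero⟩
  refine ⟨g1x_equiv M hM5 ℓ, ?_, ?_⟩
  · intro p hp hpM v
    haveI : NeZero p := ⟨hp.out.ne_zero⟩
    obtain ⟨w, hwα, hwβ⟩ := dsh_sw_swap_towerOne (M := M) (p := p) hM hpM
    apply Subtype.ext
    rw [dst_eig_T_coe, dst_eig_D_coe]
    exact g1x_equiv_hecke hM5 hpM ℓ w hwα hwβ v
  · intro d v
    apply Subtype.ext
    rw [dst_eig_D_coe]
    exact g1x_equiv_diamond hM5 ℓ d v

/-- **DS-T**: `ds_SeamTcoh`, unconditionally. -/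
theorem dstg_seamTcoh : ds_SeamTcoh :=
  dst_seamTcoh_of_good_gate
    (fun M _ hM hM5 ℓ hℓ _ => dst_good (by omega) hM ℓ hℓ.out)
    (fun M _ hM hM5 ℓ _ _ => dstg_gate hM hM5 ℓ)

end Fermat.Agent.DS
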